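import Fermat.Agent.S55.Local.H964.T5
import Fermat.Agent.S55.Local.H715.Closed
import Fermat.Agent.S55.Local.H543.UR5
import Fermat.Agent.S55.Local.H775.Inertia
import Fermat.Agent.S55.Local.H954.T4

/-!
# S55, layer L : T4 and T5 CLOSED (helper964)

`h2Cyclic : H2CyclicStatement` — for every finite Galois extension `L / K` of local fields
(finite extensions of the fraction field of a complete DVR with finite residue field, char. 0),
`H²(Gal(L/K), Lˣ)` is cyclic of order `[L : K]`.  UNCONDITIONAL: assembled from landed leaves

* T5 glue `H964.h2Cyclic_of`,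
* UR5 `H543.existsUnramExt`, UR6' `H775.inertiaCard775`,
* T4 glue `H954.h2CardDvd_of_cyclicH2Card` on T3' `Closed.cyclicH2Card`,
* `Closed.*` (helper715's integration file) for UR1, T2, LF2, LF3, A4a, A4b, A4d.
-/

set_option autoImplicit false

namespace Fermat.Agent.S55.Local.H964

open Fermat.Agent.S55.Local

/-- (T4) `|H²(Gal(L/K), Lˣ)|` divides `[L : K]`, unconditionally. -/
theorem h2CardDvd : H2CardDvdStatement :=
  H954.h2CardDvd_of_cyclicH2Card Closed.cyclicH2Card

/-- (UR6') inertia with cardinality, unconditionally (re-export). -/
theorem inertiaCard : InertiaCardStatement := H775.inertiaCard775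

/-- (UR5) existence of unramified extensions, unconditionally (re-export). -/
theorem existsUnramExt : ExistsUnramExtStatement := H543.existsUnramExt

/-- **(T5)** `H²(Gal(L/K), Lˣ)` is cyclic of order `[L : K]`, unconditionally. -/
theorem h2Cyclic : H2CyclicStatement :=
  h2Cyclic_of existsUnramExt inertiaCard Closed.unramCyclic Closed.unramNormRange
    Closed.existsUnif Closed.intUnitsComap Closed.cycCocycleIsCocycle
    Closed.cycCocycleCoboundaryIff Closed.cycCocyclePullback h2CardDvd

end Fermat.Agent.S55.Local.H964
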