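import Fermat.Agent.S55.H954.H2InfResCore

/-!
# S55, layer L, T5 glue: multiplicative form of inflation–restriction in degree 2 (helper964)

Multiplicative wrappers around helper954's cochain-level core
(`Fermat.Agent.S55.H954.exists_inflated_of_res_coboundary`,
`exists_invariant_cochain_of_inf_coboundary`), for a group `G` acting on a commutative group `M`
by a `MulDistribMulAction`.
-/

set_option autoImplicit false
set_option linter.style.haveILetI false

namespace Fermat.Agent.S55.Local.H964

open groupCohomology Fermat.Agent.S55.H954

variable {G : Type} (M : Type) [Group G] [CommGroup M] [MulDistribMulAction G M]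

/-- `H¹(S, M) = 1`, on multiplicative cocycles. -/
def MulHOneVanishes (S : Subgroup G) : Prop :=
  ∀ w : S → M, (∀ s t : S, w (s * t) = (s : G) • w t * w s) →
    ∃ a : M, ∀ s : S, w s = (s : G) • a / a

variable {M}

/-- The multiplicative coboundary of a 1-cochain. -/
def dMul (c : G → M) : G × G → M := fun p => p.1 • c p.2 / c (p.1 * p.2) * c p.1

lemma dMul_apply (c : G → M) (g h : G) : dMul c (g, h) = g • c h / c (g * h) * c g := rfl

lemma isMulCoboundary₂_iff (f : G × G → M) :
    IsMulCoboundary₂ f ↔ ∃ c : G → M, ∀ g h, f (g, h) = dMul c (g, h) := by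
  constructor
  · rintro ⟨c, hc⟩
    exact ⟨c, fun g h => (hc g h).symm⟩
  · rintro ⟨c, hc⟩
    exact ⟨c, fun g h => (hc g h).symm⟩

private lemma hOneVanishes_of_mul {S : Subgroup G} (h : MulHOneVanishes M S) :
    HOneVanishes (Representation.ofMulDistribMulAction G M) S := by
  intro w hw
  obtain ⟨a, ha⟩ := h (fun s => Additive.toMul (w s)) (fun s t => by
    have := hw s t
    have h2 := congrArg Additive.toMul this
    simpa [Representation.ofMulDistribMulAction_apply_apply, mul_comm] using h2)
  refine ⟨Additive.ofMul a, fun s => ?_⟩
  have := ha s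
  apply Additive.toMul.injective
  simpa [Representation.ofMulDistribMulAction_apply_apply] using this

private lemma isTwoCocycle_of_mul {f : G × G → M} (hf : IsMulCocycle₂ f) :
    IsTwoCocycle (Representation.ofMulDistribMulAction G M) (fun p => Additive.ofMul (f p)) := by
  intro g h j
  have := hf g h j
  apply Additive.toMul.injective
  simpa [Representation.ofMulDistribMulAction_apply_apply] using this

private lemma isMulCocycle₂_of_add {f : G × G → Additive M}
    (hf : IsTwoCocycle (Representation.ofMulDistribMulAction G M) f) :
    IsMulCocycle₂ (fun p => Additive.toMul (f p)) := by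
  intro g h j
  have := hf g h j
  have h2 := congrArg Additive.toMul this
  simpa [Representation.ofMulDistribMulAction_apply_apply] using h2

/-- **Inflation–restriction in degree 2, exactness** (multiplicative cochain form). -/
theorem mul_exists_inflated (S : Subgroup G) [S.Normal] (hH1 : MulHOneVanishes M S)
    {f : G × G → M} (hf : IsMulCocycle₂ f) (φ : S → M)
    (hφ : ∀ s t : S, f ((s : G), (t : G)) = (s : G) • φ t / φ (s * t) * φ s) :
    ∃ (c : G → M) (f' : G × G → M), (∀ g h, f (g, h) = f' (g, h) * dMul c (g, h)) ∧
      IsMulCocycle₂ f' ∧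
      (∀ s ∈ S, ∀ g h : G, f' (g, h * s) = f' (g, h)) ∧
      (∀ s ∈ S, ∀ g h : G, f' (g * s, h) = f' (g, h)) ∧
      (∀ s ∈ S, ∀ g h : G, s • f' (g, h) = f' (g, h)) := by
  obtain ⟨c, f', hff', hf', i2, i1, i3⟩ :=
    exists_inflated_of_res_coboundary (Representation.ofMulDistribMulAction G M) S
      (hOneVanishes_of_mul hH1) (isTwoCocycle_of_mul hf) (fun s => Additive.ofMul (φ s))
      (fun s t => by
        have := hφ s t
        apply Additive.toMul.injective
        simpa [Representation.ofMulDistribMulAction_apply_apply] using this)
  refine ⟨fun g => Additive.toMul (c g), fun p => Additive.toMul (f' p), ?_,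
    isMulCocycle₂_of_add hf', ?_, ?_, ?_⟩
  · intro g h
    have := congr_fun hff' (g, h)
    have h2 := congrArg Additive.toMul this
    simpa [dOne_apply, dMul_apply, Representation.ofMulDistribMulAction_apply_apply] using h2
  · intro s hs g h
    exact congrArg Additive.toMul (i2 s hs g h)
  · intro s hs g h
    exact congrArg Additive.toMul (i1 s hs g h)
  · intro s hs g h
    have := congrArg Additive.toMul (i3 s hs g h)
    simpa [Representation.ofMulDistribMulAction_apply_apply] using this

/-- **Inflation–restriction in degree 2, injectivity of inflation** (multiplicative cochain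
form). -/
theorem mul_exists_invariant_cochain (S : Subgroup G) [S.Normal] (hH1 : MulHOneVanishes M S)
    {f' : G × G → M}
    (hinv2 : ∀ s ∈ S, ∀ g h : G, f' (g, h * s) = f' (g, h))
    (hinv1 : ∀ s ∈ S, ∀ g h : G, f' (g * s, h) = f' (g, h))
    (hval : ∀ s ∈ S, ∀ g h : G, s • f' (g, h) = f' (g, h))
    (c : G → M) (hc : ∀ g h, f' (g, h) = dMul c (g, h)) :
    ∃ c' : G → M, (∀ g h, f' (g, h) = dMul c' (g, h)) ∧
      (∀ s ∈ S, ∀ g : G, c' (g * s) = c' g) ∧ (∀ s ∈ S, ∀ g : G, s • c' g = c' g) := by
  obtain ⟨c', hd, hr, hv⟩ :=
    exists_invariant_cochain_of_inf_coboundary (Representation.ofMulDistribMulAction G M) S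
      (hOneVanishes_of_mul hH1) (f' := fun p => Additive.ofMul (f' p))
      (fun s hs g h => congrArg Additive.ofMul (hinv2 s hs g h))
      (fun s hs g h => congrArg Additive.ofMul (hinv1 s hs g h))
      (fun s hs g h => by
        have := hval s hs g h
        apply Additive.toMul.injective
        simpa [Representation.ofMulDistribMulAction_apply_apply] using this)
      (fun g => Additive.ofMul (c g))
      (by
        funext ⟨g, h⟩
        have := hc g h
        apply Additive.toMul.injective
        simpa [dOne_apply, dMul_apply, Representation.ofMulDistribMulAction_apply_apply]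
          using this)
  refine ⟨fun g => Additive.toMul (c' g), ?_, ?_, ?_⟩
  · intro g h
    have := congr_fun hd (g, h)
    have h2 := congrArg Additive.toMul this
    simpa [dOne_apply, dMul_apply, Representation.ofMulDistribMulAction_apply_apply] using h2
  · intro s hs g
    exact congrArg Additive.toMul (hr s hs g)
  · intro s hs g
    have := congrArg Additive.toMul (hv s hs g)
    simpa [Representation.ofMulDistribMulAction_apply_apply] using this

end Fermat.Agent.S55.Local.H964
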