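import Fermat.Agent.S55.Local.H964.Galois
import Fermat.Agent.S55.Local.H964.Cocycle

/-!
# S55, layer L, T5 glue: descent of cochains from `Gal(N/K)` to `Gal(L/K)` (helper964)

Tower `K ⊆ L ⊆ N`, `N / K` finite Galois, `L / K` normal, `S = kerRes K L N`.
Cochains on `Gal(N/K)` with values in `Nˣ` which are right-`S`-invariant and have `S`-invariant
values descend to cochains on `Gal(L/K)` with values in `Lˣ`.
-/

set_option autoImplicit false
set_option linter.style.haveILetI false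
set_option linter.unusedSectionVars false

namespace Fermat.Agent.S55.Local.H964

open groupCohomology Fermat.Agent.S55.Local

variable {K L N : Type} [Field K] [Field L] [Field N] [Algebra K L] [Algebra K N] [Algebra L N]
  [IsScalarTower K L N] [Normal K L] [FiniteDimensional K N] [IsGalois K N]

lemma inv_mul_mem_kerRes {g g' : N ≃ₐ[K] N} (h : resHom K L N g = resHom K L N g') :
    g⁻¹ * g' ∈ kerRes K L N := by
  unfold kerRes
  rw [MonoidHom.mem_ker, map_mul, map_inv, h, inv_mul_cancel]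

/-- Hilbert 90 in the form needed by the inflation–restriction lemmas. -/
lemma mulHOneVanishes_kerRes : MulHOneVanishes (G := N ≃ₐ[K] N) Nˣ (kerRes K L N) :=
  fun w hw => hilbert90_kerRes w hw

/-- Descent of a 2-cochain. -/
theorem exists_descend₂ (f' : (N ≃ₐ[K] N) × (N ≃ₐ[K] N) → Nˣ)
    (hinv2 : ∀ s ∈ kerRes K L N, ∀ g h, f' (g, h * s) = f' (g, h))
    (hinv1 : ∀ s ∈ kerRes K L N, ∀ g h, f' (g * s, h) = f' (g, h))
    (hval : ∀ s ∈ kerRes K L N, ∀ g h, s • f' (g, h) = f' (g, h)) :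
    ∃ cL : (L ≃ₐ[K] L) × (L ≃ₐ[K] L) → Lˣ,
      ∀ g h, unitsIncl N L (cL (resHom K L N g, resHom K L N h)) = f' (g, h) := by
  classical
  have hsurj := resHom_surjective (K := K) (L := L) (N := N)
  have hex : ∀ p : (L ≃ₐ[K] L) × (L ≃ₐ[K] L), ∃ y : Lˣ,
      unitsIncl N L y = f' (Function.surjInv hsurj p.1, Function.surjInv hsurj p.2) :=
    fun p => exists_unitsIncl_eq_of_fixed _ (fun s hs => hval s hs _ _)
  choose cL hcL using hex
  refine ⟨cL, fun g h => ?_⟩
  rw [hcL]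
  simp only
  set g₀ := Function.surjInv hsurj (resHom K L N g) with hg₀
  set h₀ := Function.surjInv hsurj (resHom K L N h) with hh₀
  have e1 : resHom K L N g₀ = resHom K L N g := Function.surjInv_eq hsurj _
  have e2 : resHom K L N h₀ = resHom K L N h := Function.surjInv_eq hsurj _
  have m1 := inv_mul_mem_kerRes e1
  have m2 := inv_mul_mem_kerRes e2
  have := hinv1 _ m1 g₀ h₀
  rw [mul_inv_cancel_left] at this
  rw [← this]
  have := hinv2 _ m2 g h₀
  rw [mul_inv_cancel_left] at this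
  rw [← this]

/-- Descent of a 1-cochain. -/
theorem exists_descend₁ (c' : (N ≃ₐ[K] N) → Nˣ)
    (hinv : ∀ s ∈ kerRes K L N, ∀ g, c' (g * s) = c' g)
    (hval : ∀ s ∈ kerRes K L N, ∀ g, s • c' g = c' g) :
    ∃ b : (L ≃ₐ[K] L) → Lˣ, ∀ g, unitsIncl N L (b (resHom K L N g)) = c' g := by
  classical
  have hsurj := resHom_surjective (K := K) (L := L) (N := N)
  have hex : ∀ σ : L ≃ₐ[K] L, ∃ y : Lˣ, unitsIncl N L y = c' (Function.surjInv hsurj σ) :=
    fun σ => exists_unitsIncl_eq_of_fixed _ (fun s hs => hval s hs _)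
  choose b hb using hex
  refine ⟨b, fun g => ?_⟩
  rw [hb]
  set g₀ := Function.surjInv hsurj (resHom K L N g) with hg₀
  have e1 : resHom K L N g₀ = resHom K L N g := Function.surjInv_eq hsurj _
  have m1 := inv_mul_mem_kerRes e1
  have := hinv _ m1 g₀
  rw [mul_inv_cancel_left] at this
  rw [← this]

/-- A descended 2-cocycle is a 2-cocycle. -/
theorem isMulCocycle₂_of_descend {f' : (N ≃ₐ[K] N) × (N ≃ₐ[K] N) → Nˣ}
    (hf' : IsMulCocycle₂ f') {cL : (L ≃ₐ[K] L) × (L ≃ₐ[K] L) → Lˣ}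
    (hcL : ∀ g h, unitsIncl N L (cL (resHom K L N g, resHom K L N h)) = f' (g, h)) :
    IsMulCocycle₂ cL := by
  have hsurj := resHom_surjective (K := K) (L := L) (N := N)
  intro σ τ υ
  obtain ⟨g, rfl⟩ := hsurj σ
  obtain ⟨h, rfl⟩ := hsurj τ
  obtain ⟨j, rfl⟩ := hsurj υ
  apply unitsIncl_injective (N := N) (L := L)
  have := hf' g h j
  rw [map_mul, map_mul, ← map_mul (resHom K L N), ← map_mul (resHom K L N),
    unitsIncl_resHom_smul, hcL, hcL, hcL, hcL]
  exact this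

/-- The inflation of a coboundary is a coboundary. -/
theorem inflate_dMul {f' : (N ≃ₐ[K] N) × (N ≃ₐ[K] N) → Nˣ}
    {cL : (L ≃ₐ[K] L) × (L ≃ₐ[K] L) → Lˣ}
    (hcL : ∀ g h, unitsIncl N L (cL (resHom K L N g, resHom K L N h)) = f' (g, h))
    (b : (L ≃ₐ[K] L) → Lˣ) (hb : ∀ σ τ, cL (σ, τ) = dMul b (σ, τ)) :
    ∀ g h, f' (g, h) = dMul (fun g => unitsIncl N L (b (resHom K L N g))) (g, h) := by
  intro g h
  rw [← hcL, hb, dMul_apply, dMul_apply, map_mul, map_div, unitsIncl_resHom_smul, map_mul]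

/-- The descent of a coboundary of a descended cochain is a coboundary. -/
theorem descend_dMul {f' : (N ≃ₐ[K] N) × (N ≃ₐ[K] N) → Nˣ}
    {cL : (L ≃ₐ[K] L) × (L ≃ₐ[K] L) → Lˣ}
    (hcL : ∀ g h, unitsIncl N L (cL (resHom K L N g, resHom K L N h)) = f' (g, h))
    {c' : (N ≃ₐ[K] N) → Nˣ} (hc' : ∀ g h, f' (g, h) = dMul c' (g, h))
    {b : (L ≃ₐ[K] L) → Lˣ} (hb : ∀ g, unitsIncl N L (b (resHom K L N g)) = c' g) :
    ∀ σ τ, cL (σ, τ) = dMul b (σ, τ) := by
  have hsurj := resHom_surjective (K := K) (L := L) (N := N)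
  intro σ τ
  obtain ⟨g, rfl⟩ := hsurj σ
  obtain ⟨h, rfl⟩ := hsurj τ
  apply unitsIncl_injective (N := N) (L := L)
  rw [hcL, hc', dMul_apply, dMul_apply, map_mul, map_div, unitsIncl_resHom_smul,
    ← map_mul (resHom K L N), hb, hb, hb]

end Fermat.Agent.S55.Local.H964
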