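import Fermat.Agent.S55.Local.Spec
import Fermat.Agent.S55.Local.H964.Descent

/-!
# S55, layer L, T5 glue: auxiliary lemmas (helper964)
-/

set_option autoImplicit false
set_option linter.style.haveILetI false
set_option linter.unusedSectionVars false

namespace Fermat.Agent.S55.Local.H964

open groupCohomology Fermat.Agent.S55.Local

section Cyc

variable {G : Type} [Group G] {M M' : Type} [CommGroup M] [CommGroup M']

lemma cycCocycle_map (j : M →* M') (σ : G) (x : M) (p : G × G) :
    cycCocycle σ (j x) p = j (cycCocycle σ x p) := by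
  simp only [cycCocycle, map_pow]

lemma cycCocycle_pow (σ : G) (x : M) (k : ℕ) (p : G × G) :
    cycCocycle σ (x ^ k) p = cycCocycle σ x p ^ k := by
  simp only [cycCocycle, ← pow_mul, mul_comm]

end Cyc

section DMul

variable {G M : Type} [Group G] [CommGroup M] [MulDistribMulAction G M]

lemma dMul_mul (c₁ c₂ : G → M) (g h : G) :
    dMul (fun g => c₁ g * c₂ g) (g, h) = dMul c₁ (g, h) * dMul c₂ (g, h) := by
  simp only [dMul_apply, smul_mul']
  rw [← div_mul_div_comm, mul_mul_mul_comm]

lemma dMul_pow (c : G → M) (k : ℕ) (g h : G) :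
    dMul (fun g => c g ^ k) (g, h) = dMul c (g, h) ^ k := by
  simp only [dMul_apply, smul_pow']
  rw [mul_pow, div_pow]

end DMul

section Base

variable {K L : Type} [Field K] [Field L] [Algebra K L]

lemma smul_unitsIncl_base (σ : L ≃ₐ[K] L) (y : Kˣ) :
    σ • unitsIncl L K y = unitsIncl L K y := by
  apply Units.ext
  rw [AlgEquiv.smul_units_def]
  simp only [unitsIncl_coe, Units.coe_map, MonoidHom.coe_coe]
  exact σ.commutes _

lemma unitsIncl_injective_base : Function.Injective (unitsIncl L K) := by
  intro a b h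
  apply Units.ext
  apply (algebraMap K L).injective
  have := congrArg (fun u : Lˣ => (u : L)) h
  simpa using this

lemma prod_gal_smul [FiniteDimensional K L] [IsGalois K L] [Fintype (L ≃ₐ[K] L)] (y : Lˣ) :
    ∏ σ : L ≃ₐ[K] L, σ • y = unitsIncl L K (normUnits L K y) := by
  classical
  apply Units.ext
  rw [unitsIncl_coe, normUnits_coe, Algebra.norm_eq_prod_automorphisms K (y : L),
    Units.coe_prod]
  refine Finset.prod_congr ?_ ?_
  · ext σ; simp
  · intro σ _
    rw [AlgEquiv.smul_units_def]
    rfl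

end Base

section Tower

variable {K L N : Type} [Field K] [Field L] [Field N] [Algebra K L] [Algebra K N] [Algebra L N]
  [IsScalarTower K L N]

lemma unitsIncl_unitsIncl (y : Kˣ) : unitsIncl N L (unitsIncl L K y) = unitsIncl N K y := by
  apply Units.ext
  simp only [unitsIncl_coe]
  exact (IsScalarTower.algebraMap_apply K L N _).symm

variable [Normal K L] [FiniteDimensional K N] [IsGalois K N]

/-- The inflation of a 2-cocycle is a 2-cocycle. -/
theorem isMulCocycle₂_inflate {cL : (L ≃ₐ[K] L) × (L ≃ₐ[K] L) → Lˣ} (hcL : IsMulCocycle₂ cL) :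
    IsMulCocycle₂ (fun p : (N ≃ₐ[K] N) × (N ≃ₐ[K] N) =>
      unitsIncl N L (cL (resHom K L N p.1, resHom K L N p.2))) := by
  intro g h j
  have := hcL (resHom K L N g) (resHom K L N h) (resHom K L N j)
  have h2 := congrArg (unitsIncl N L) this
  simp only [map_mul, unitsIncl_resHom_smul] at h2 ⊢
  exact h2

lemma inflate_inv2 (cL : (L ≃ₐ[K] L) × (L ≃ₐ[K] L) → Lˣ) :
    ∀ s ∈ kerRes K L N, ∀ g h : N ≃ₐ[K] N,
      unitsIncl N L (cL (resHom K L N g, resHom K L N (h * s))) =
        unitsIncl N L (cL (resHom K L N g, resHom K L N h)) := by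
  intro s hs g h
  have : resHom K L N s = 1 := hs
  rw [map_mul, this, mul_one]

lemma inflate_inv1 (cL : (L ≃ₐ[K] L) × (L ≃ₐ[K] L) → Lˣ) :
    ∀ s ∈ kerRes K L N, ∀ g h : N ≃ₐ[K] N,
      unitsIncl N L (cL (resHom K L N (g * s), resHom K L N h)) =
        unitsIncl N L (cL (resHom K L N g, resHom K L N h)) := by
  intro s hs g h
  have : resHom K L N s = 1 := hs
  rw [map_mul, this, mul_one]

end Tower

section Integrality

variable (A F : Type) [CommRing A] [Field F] [Algebra A F]
variable {L N : Type} [Field L] [Field N] [Algebra F L] [Algebra F N] [Algebra L N]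
  [IsScalarTower F L N]

lemma isInt_algebraMap {x : L} (hx : IsInt A F L x) : IsInt A F N (algebraMap L N x) := by
  obtain ⟨p, hp, hpx⟩ := hx
  refine ⟨p, hp, ?_⟩
  have e : toL A F N = (algebraMap L N).comp (toL A F L) := by
    ext a
    simp only [toL_apply, RingHom.comp_apply]
    exact IsScalarTower.algebraMap_apply F L N _
  rw [e, ← Polynomial.hom_eval₂, hpx, map_zero]

lemma unitsIncl_mem_intUnits {y : Lˣ} (hy : y ∈ intUnits A F L) :
    unitsIncl N L y ∈ intUnits A F N := by
  refine ⟨isInt_algebraMap A F hy.1, ?_⟩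
  have : ((unitsIncl N L y)⁻¹ : Nˣ) = unitsIncl N L y⁻¹ := (map_inv _ _).symm
  rw [this]
  exact isInt_algebraMap A F hy.2

end Integrality

end Fermat.Agent.S55.Local.H964
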