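import Fermat.Agent.S55.Local.Defs

/-!
# S55, layer L, T5 glue: Galois-theoretic transport (helper964)

Setting: a tower `K ⊆ L ⊆ N` with `N / K` finite Galois and `L / K` normal.
`resHom : Gal(N/K) →* Gal(L/K)` is the restriction, `kerRes` its kernel (`≃ Gal(N/L)`).

* `unitsIncl_resHom_smul` : equivariance of `Lˣ → Nˣ`.
* `exists_unitsIncl_eq_of_fixed` : the units of `N` fixed by `kerRes` are the units of `L`.
* `hilbert90_kerRes` : `H¹(kerRes, Nˣ) = 1` on cocycles.
* `prod_kerRes_smul` : `∏_{s ∈ kerRes} s • y = N_{N/L}(y)`.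
* `card_kerRes` : `|kerRes| = [N : L]`.
-/

set_option autoImplicit false
set_option linter.style.haveILetI false

namespace Fermat.Agent.S55.Local.H964

open Fermat.Agent.S55.Local

section Tower

variable (K L N : Type) [Field K] [Field L] [Field N] [Algebra K L] [Algebra K N] [Algebra L N]
  [IsScalarTower K L N] [Normal K L]

/-- Restriction `Gal(N/K) →* Gal(L/K)`. -/
noncomputable def resHom : (N ≃ₐ[K] N) →* (L ≃ₐ[K] L) := AlgEquiv.restrictNormalHom L

/-- The kernel of the restriction `Gal(N/K) →* Gal(L/K)` (`≃ Gal(N/L)`). -/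
noncomputable def kerRes : Subgroup (N ≃ₐ[K] N) := (resHom K L N).ker

instance : (kerRes K L N).Normal := by unfold kerRes; infer_instance

variable {K L N}

lemma algebraMap_resHom (g : N ≃ₐ[K] N) (x : L) :
    algebraMap L N (resHom K L N g x) = g (algebraMap L N x) :=
  AlgEquiv.restrictNormal_commutes g L x

lemma mem_kerRes_iff (g : N ≃ₐ[K] N) :
    g ∈ kerRes K L N ↔ ∀ x : L, g (algebraMap L N x) = algebraMap L N x := by
  unfold kerRes
  rw [MonoidHom.mem_ker]
  constructor
  · intro h x
    rw [← algebraMap_resHom, h]; rfl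
  · intro h
    ext x
    apply (algebraMap L N).injective
    rw [algebraMap_resHom, h]; rfl

/-- Equivariance of the inclusion `Lˣ → Nˣ`. -/
lemma unitsIncl_resHom_smul (g : N ≃ₐ[K] N) (y : Lˣ) :
    unitsIncl N L (resHom K L N g • y) = g • unitsIncl N L y := by
  apply Units.ext
  rw [AlgEquiv.smul_units_def, AlgEquiv.smul_units_def]
  simp only [unitsIncl_coe, Units.coe_map, MonoidHom.coe_coe]
  exact algebraMap_resHom g (y : L)

lemma unitsIncl_injective : Function.Injective (unitsIncl N L) := by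
  intro a b h
  apply Units.ext
  apply (algebraMap L N).injective
  have := congrArg (fun u : Nˣ => (u : N)) h
  simpa using this

lemma smul_unitsIncl_of_mem_kerRes {s : N ≃ₐ[K] N} (hs : s ∈ kerRes K L N) (y : Lˣ) :
    s • unitsIncl N L y = unitsIncl N L y := by
  apply Units.ext
  rw [AlgEquiv.smul_units_def]
  simp only [unitsIncl_coe, Units.coe_map, MonoidHom.coe_coe]
  exact (mem_kerRes_iff s).1 hs _

/-- An `L`-automorphism of `N`, viewed in `kerRes`. -/
def toKerRes (σ : N ≃ₐ[L] N) : kerRes K L N :=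
  ⟨σ.restrictScalars K, (mem_kerRes_iff _).2 fun x => σ.commutes x⟩

/-- An element of `kerRes` as an `L`-automorphism of `N`. -/
def ofKerRes (s : kerRes K L N) : N ≃ₐ[L] N :=
  { (s : N ≃ₐ[K] N).toRingEquiv with
    commutes' := fun x => (mem_kerRes_iff _).1 s.2 x }

@[simp] lemma ofKerRes_apply (s : kerRes K L N) (x : N) :
    ofKerRes s x = (s : N ≃ₐ[K] N) x := rfl

@[simp] lemma toKerRes_apply (σ : N ≃ₐ[L] N) (x : N) :
    ((toKerRes σ : kerRes K L N) : N ≃ₐ[K] N) x = σ x := rfl

/-- `kerRes ≃ Gal(N/L)`. -/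
def kerResEquiv : kerRes K L N ≃ (N ≃ₐ[L] N) where
  toFun := ofKerRes
  invFun := toKerRes
  left_inv s := by
    apply Subtype.ext
    ext x
    rfl
  right_inv σ := by
    ext x
    rfl

lemma ofKerRes_mul (s t : kerRes K L N) : ofKerRes (s * t) = ofKerRes s * ofKerRes t := by
  ext x
  rfl

lemma ofKerRes_smul (s : kerRes K L N) (z : Nˣ) :
    ofKerRes s • z = (s : N ≃ₐ[K] N) • z := by
  apply Units.ext
  rw [AlgEquiv.smul_units_def, AlgEquiv.smul_units_def]
  rfl

variable [FiniteDimensional K N] [IsGalois K N]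

lemma card_kerRes : Nat.card (kerRes K L N) = Module.finrank L N := by
  haveI : FiniteDimensional L N := Module.Finite.of_restrictScalars_finite K L N
  haveI : IsGalois L N := IsGalois.tower_top_of_isGalois K L N
  rw [Nat.card_congr (kerResEquiv (K := K) (L := L) (N := N)), IsGalois.card_aut_eq_finrank]

lemma resHom_surjective : Function.Surjective (resHom K L N) :=
  AlgEquiv.restrictNormalHom_surjective N

/-- The units of `N` fixed by `kerRes` come from `L`. -/
lemma exists_unitsIncl_eq_of_fixed (z : Nˣ)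
    (hz : ∀ s ∈ kerRes K L N, s • z = z) : ∃ y : Lˣ, unitsIncl N L y = z := by
  haveI : FiniteDimensional L N := Module.Finite.of_restrictScalars_finite K L N
  haveI : IsGalois L N := IsGalois.tower_top_of_isGalois K L N
  have hfix : ∀ σ : N ≃ₐ[L] N, σ (z : N) = z := by
    intro σ
    have := hz (toKerRes σ : kerRes K L N) (toKerRes σ).2
    have h2 := congrArg (fun u : Nˣ => (u : N)) this
    simpa [AlgEquiv.smul_units_def] using h2
  obtain ⟨y₀, hy₀⟩ := (IsGalois.mem_range_algebraMap_iff_fixed (F := L) (E := N) (z : N)).2 hfix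
  have hne : y₀ ≠ 0 := by
    rintro rfl
    rw [map_zero] at hy₀
    exact z.ne_zero hy₀.symm
  refine ⟨Units.mk0 y₀ hne, ?_⟩
  apply Units.ext
  simpa using hy₀

/-- Hilbert 90 for `kerRes ≃ Gal(N/L)` acting on `Nˣ`, on cocycles. -/
lemma hilbert90_kerRes (w : kerRes K L N → Nˣ)
    (hw : ∀ s t : kerRes K L N, w (s * t) = (s : N ≃ₐ[K] N) • w t * w s) :
    ∃ a : Nˣ, ∀ s : kerRes K L N, w s = (s : N ≃ₐ[K] N) • a / a := by
  haveI : FiniteDimensional L N := Module.Finite.of_restrictScalars_finite K L N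
  have hcoc : groupCohomology.IsMulCocycle₁ (fun σ : N ≃ₐ[L] N => w (toKerRes σ)) := by
    intro σ τ
    have := hw (toKerRes σ) (toKerRes τ)
    have e : (toKerRes (σ * τ) : kerRes K L N) = toKerRes σ * toKerRes τ := by
      apply Subtype.ext
      ext x
      rfl
    show w (toKerRes (σ * τ)) = σ • w (toKerRes τ) * w (toKerRes σ)
    rw [e, this]
    congr 1
  obtain ⟨a, ha⟩ := groupCohomology.isMulCoboundary₁_of_isMulCocycle₁_of_aut_to_units _ hcoc
  refine ⟨a, fun s => ?_⟩
  have := ha (ofKerRes s)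
  have e : (toKerRes (ofKerRes s) : kerRes K L N) = s := by
    apply Subtype.ext
    ext x
    rfl
  simp only [e] at this
  rw [← this, ofKerRes_smul]

/-- The product over `kerRes` is the norm `N → L`. -/
lemma prod_kerRes_smul [Fintype (kerRes K L N)] (y : Nˣ) :
    ∏ s : kerRes K L N, (s : N ≃ₐ[K] N) • y = unitsIncl N L (normUnits N L y) := by
  classical
  haveI : FiniteDimensional L N := Module.Finite.of_restrictScalars_finite K L N
  haveI : IsGalois L N := IsGalois.tower_top_of_isGalois K L N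
  apply Units.ext
  rw [unitsIncl_coe, normUnits_coe, Algebra.norm_eq_prod_automorphisms L (y : N)]
  rw [Units.coe_prod]
  refine Finset.prod_bij' (fun s _ => ofKerRes s) (fun σ _ => toKerRes σ) ?_ ?_ ?_ ?_ ?_
  · intro s _; exact Finset.mem_univ _
  · intro σ _; exact Finset.mem_univ _
  · intro s _
    apply Subtype.ext
    ext x
    rfl
  · intro σ _
    ext x
    rfl
  · intro s _
    rw [AlgEquiv.smul_units_def]
    rfl

end Tower

end Fermat.Agent.S55.Local.H964
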