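import Mathlib

/-!
# S55, layer L, T5 glue: two group-theoretic lemmas (helper964)

* `exists_generator_pow_eq` : in a finite cyclic group `C`, for every element `a` there is a
  generator `φ` with `φ ^ (|C| / orderOf a) = a`.
* `card_eq_and_isAddCyclic` : an additive group whose order divides `n` and which contains an
  element of "order at least `n`" is cyclic of order `n`.
-/

set_option autoImplicit false
set_option linter.style.haveILetI false

namespace Fermat.Agent.S55.Local.H964

/-- In a finite cyclic group every element `a` is the `(|C| / orderOf a)`-th power of a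
generator. -/
theorem exists_generator_pow_eq {C : Type*} [Group C] [Finite C] [IsCyclic C] (a : C) :
    ∃ φ : C, (∀ g, g ∈ Subgroup.zpowers φ) ∧ φ ^ (Nat.card C / orderOf a) = a := by
  classical
  obtain ⟨γ, hγ⟩ := IsCyclic.exists_generator (α := C)
  have hf : orderOf γ = Nat.card C := orderOf_eq_card_of_forall_mem_zpowers hγ
  set f := Nat.card C with hfdef
  have hfpos : 0 < f := Nat.card_pos
  haveI : NeZero f := ⟨hfpos.ne'⟩
  set n := orderOf a with hn
  have hnpos : 0 < n := orderOf_pos a
  have hnf : n ∣ f := orderOf_dvd_natCard a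
  haveI : NeZero n := ⟨hnpos.ne'⟩
  set d := f / n with hd
  have hdn : d * n = f := Nat.div_mul_cancel hnf
  have hdpos : 0 < d := Nat.pos_of_ne_zero (by rintro h; rw [h, zero_mul] at hdn; omega)
  -- write `a = γ ^ j`
  obtain ⟨j, hj⟩ : ∃ j : ℕ, γ ^ j = a := by
    have := hγ a
    rw [← mem_powers_iff_mem_zpowers] at this
    exact this
  -- `d ∣ j`
  have hdj : d ∣ j := by
    -- `a ^ n = 1` so `γ ^ (j * n) = 1`, hence `f ∣ j * n`
    have h1 : γ ^ (j * n) = 1 := by rw [pow_mul, hj, hn, pow_orderOf_eq_one]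
    have h2 : f ∣ j * n := by rw [← hf]; exact orderOf_dvd_of_pow_eq_one h1
    rw [← hdn] at h2
    exact (Nat.mul_dvd_mul_iff_right hnpos).1 h2
  obtain ⟨j', rfl⟩ := hdj
  -- `j'` is coprime to `n`
  have hcop : Nat.Coprime j' n := by
    -- if a prime `ℓ` divides both then `a ^ (n / ℓ) = 1`
    rw [Nat.coprime_comm, Nat.coprime_iff_gcd_eq_one]
    by_contra hne
    set g := Nat.gcd n j' with hg
    have hg1 : 1 < g := by
      have hgpos : 0 < g := Nat.gcd_pos_of_pos_left _ hnpos
      omega
    obtain ⟨n', hn'⟩ : g ∣ n := Nat.gcd_dvd_left _ _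
    obtain ⟨j'', hj''⟩ : g ∣ j' := Nat.gcd_dvd_right _ _
    have hn'pos : 0 < n' := Nat.pos_of_ne_zero (by rintro h; rw [h, mul_zero] at hn'; omega)
    have hpow : a ^ n' = 1 := by
      rw [← hj, ← pow_mul]
      have : d * j' * n' = f * j'' := by
        rw [← hdn, hj'']
        calc d * (g * j'') * n' = d * (g * n') * j'' := by ring
          _ = d * n * j'' := by rw [← hn']
      rw [this, pow_mul, ← hf, pow_orderOf_eq_one, one_pow]
    have hle : n ≤ n' := Nat.le_of_dvd hn'pos (orderOf_dvd_of_pow_eq_one hpow)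
    have : n' < n := by
      rw [hn']
      calc n' = 1 * n' := (one_mul _).symm
        _ < g * n' := Nat.mul_lt_mul_of_pos_right hg1 hn'pos
    omega
  -- lift the unit `j' mod n` to a unit `u mod f`
  let u₀ : (ZMod n)ˣ := ZMod.unitOfCoprime j' hcop
  obtain ⟨u, hu⟩ := ZMod.unitsMap_surjective hnf u₀
  -- `φ := γ ^ (u.val)`
  set k : ℕ := (u : ZMod f).val with hk
  have hkcop : Nat.Coprime k f := ZMod.val_coe_unit_coprime u
  have hkn : (k : ZMod n) = (j' : ZMod n) := by
    have h1 : ((ZMod.unitsMap hnf u : (ZMod n)ˣ) : ZMod n) = ZMod.castHom hnf (ZMod n) (u : ZMod f) :=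
      rfl
    rw [hu] at h1
    have h2 : ((u₀ : (ZMod n)ˣ) : ZMod n) = (j' : ZMod n) := ZMod.coe_unitOfCoprime j' hcop
    rw [h2] at h1
    rw [h1, hk]
    have : ((u : ZMod f).val : ZMod f) = (u : ZMod f) := ZMod.natCast_zmod_val _
    conv_rhs => rw [← this]
    rw [map_natCast]
  refine ⟨γ ^ k, ?_, ?_⟩
  · -- `γ ^ k` is a generator since `k` is coprime to `f = orderOf γ`
    intro g
    have hord : orderOf (γ ^ k) = Nat.card C := by
      rw [Nat.Coprime.orderOf_pow (by rw [hf]; exact hkcop.symm), hf]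
    have hcard : Nat.card (Subgroup.zpowers (γ ^ k)) = Nat.card C := by
      rw [Nat.card_zpowers, hord]
    have htop : Subgroup.zpowers (γ ^ k) = ⊤ := Subgroup.eq_top_of_card_eq _ hcard
    rw [htop]; exact Subgroup.mem_top g
  · -- `(γ ^ k) ^ d = γ ^ (d * j')`
    rw [← hj, ← pow_mul]
    rw [pow_eq_pow_iff_modEq, hf]
    -- `k * d ≡ d * j' mod f = d * n`
    have hmod : k ≡ j' [MOD n] := (ZMod.natCast_eq_natCast_iff _ _ _).1 hkn
    have := Nat.ModEq.mul_left' d hmod
    rw [hdn] at this
    calc k * d = d * k := mul_comm _ _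
      _ ≡ d * j' [MOD f] := this

/-- An additive group whose cardinality divides `n > 0` and which has an element `a` such that
`k • a = 0` implies `n ∣ k`, is cyclic of order `n`. -/
theorem card_eq_and_isAddCyclic {H : Type*} [AddGroup H] {n : ℕ} (hn : 0 < n)
    (hcard : Nat.card H ∣ n) (a : H) (ha : ∀ k : ℕ, k • a = 0 → n ∣ k) :
    Nat.card H = n ∧ IsAddCyclic H := by
  have hne : Nat.card H ≠ 0 := by
    rintro h; rw [h] at hcard; exact hn.ne' (Nat.eq_zero_of_zero_dvd hcard)
  have : Finite H := Nat.finite_of_card_ne_zero hne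
  have h1 : n ∣ addOrderOf a := ha _ (addOrderOf_nsmul_eq_zero a)
  have h2 : addOrderOf a ∣ Nat.card H := addOrderOf_dvd_natCard a
  have h3 : Nat.card H = n := Nat.dvd_antisymm hcard (h1.trans h2)
  have h4 : addOrderOf a = Nat.card H :=
    Nat.dvd_antisymm h2 (by rw [h3]; exact h1)
  exact ⟨h3, isAddCyclic_of_addOrderOf_eq_card a h4⟩

end Fermat.Agent.S55.Local.H964
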