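import Fermat.Agent.S55.Local.H964.T5Middle

/-!
# S55, layer L, piece T5 : `H²(Gal(L/K), Lˣ)` is cyclic of order `[L : K]` (helper964)

`h2Cyclic_of` : the glue theorem deriving `H2CyclicStatement` (T5) from

* UR5 `ExistsUnramExtStatement`, UR6' `InertiaCardStatement` (`Spec2.lean`),
  UR1 `UnramCyclicStatement`, T2 `UnramNormRangeStatement`,
* LF2 `ExistsUnifStatement`, LF3 `IntUnitsComapStatement`,
* A4a, A4b, A4d (standard cocycles of cyclic groups),
* T4 `H2CardDvdStatement` (upper bound).

Proof (helper715's plan, §3 of `coord/S55-L.md`): `n = [L : K]`; `N / L` unramified of degree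
`n`, Galois over `K` (UR5); `I` the inertia subgroup of `Gal(N/K)`, `E = N^I`; `E / K` is
unramified, hence cyclic, and `Gal(N/L) → Gal(E/K)` is injective.  The standard cocycle of
`ϖK ^ ([E : K] / n)` for a suitable generator of `Gal(E/K)` inflates to a cocycle of `Gal(N/K)`
whose class has order divisible by `n` (T2 for `E / K`) and whose restriction to `Gal(N/L)` is
trivial (T2 for `N / L`, as `|I| = e(N/K) = e(L/K)`); by inflation–restriction (Hilbert 90) it
comes from a class of `H²(Gal(L/K), Lˣ)` of order divisible by `n`; conclude with T4.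
-/

set_option autoImplicit false
set_option linter.style.haveILetI false
set_option linter.unusedSectionVars false
set_option linter.unusedVariables false

namespace Fermat.Agent.S55.Local.H964

open groupCohomology Fermat.Agent.S55.Local

/-- The lower bound of T5 in cocycle form: there is a 2-cocycle of `Gal(L/K)` with values in
`Lˣ` such that if its `k`-th power is a coboundary then `[L : K] ∣ k`. -/
theorem exists_cocycle_order (hUR5 : ExistsUnramExtStatement) (hIC : InertiaCardStatement)
    (hUR1 : UnramCyclicStatement) (hT2 : UnramNormRangeStatement) (hLF2 : ExistsUnifStatement)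
    (hLF3 : IntUnitsComapStatement) (hA4a : CycCocycleIsCocycleStatement)
    (hA4b : CycCocycleCoboundaryIffStatement) (hA4d : CycCocyclePullbackStatement)
    (A F : Type) [CommRing A] [IsDomain A] [IsDiscreteValuationRing A]
    [IsAdicComplete (IsLocalRing.maximalIdeal A) A] [Finite (IsLocalRing.ResidueField A)]
    [Field F] [CharZero F] [Algebra A F] [IsFractionRing A F]
    (K : Type) [Field K] [Algebra F K] [FiniteDimensional F K]
    (L : Type) [Field L] [Algebra F L] [Algebra K L] [IsScalarTower F K L]
    [FiniteDimensional K L] [IsGalois K L] :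
    ∃ cL : (L ≃ₐ[K] L) × (L ≃ₐ[K] L) → Lˣ, IsMulCocycle₂ cL ∧
      ∀ k : ℕ, IsMulCoboundary₂ (fun p => cL p ^ k) → Module.finrank K L ∣ k := by
  classical
  have hnpos : 0 < Module.finrank K L := Module.finrank_pos
  obtain ⟨N, _, _, _, _, _, _, _, _, _, hNL, hdeg⟩ := hUR5 A F K L (Module.finrank K L) hnpos
  obtain ⟨I, hInormal, hI, hIcard⟩ := hIC A F K N
  haveI := hInormal
  -- the maximal unramified subextension
  let Ku : IntermediateField K N := IntermediateField.fixedField I
  letI algFKu : Algebra F Ku := ((algebraMap K Ku).comp (algebraMap F K)).toAlgebra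
  haveI : IsScalarTower F K Ku := IsScalarTower.of_algebraMap_eq (fun _ => rfl)
  haveI : IsGalois K Ku := IsGalois.of_fixedField_normal_subgroup I
  have hker : kerRes K Ku N = I := by
    unfold kerRes resHom
    rw [IntermediateField.restrictNormalHom_ker, IntermediateField.fixingSubgroup_fixedField]
  have hKuK : IsUnram A F Ku K :=
    (hI Ku).2.2 (le_of_eq (IntermediateField.fixingSubgroup_fixedField I).symm)
  -- `Gal(N/L) ⊓ I = ⊥`
  have hdisj : kerRes K L N ⊓ kerRes K Ku N = ⊥ := by
    rw [hker]
    have h1 := (hI (IntermediateField.fixedField (kerRes K L N))).1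
    rw [IntermediateField.fixingSubgroup_fixedField] at h1
    apply h1.1
    intro x
    obtain ⟨y, hy⟩ := hNL x
    have hmem : algebraMap L N (y : L) ∈ IntermediateField.fixedField (kerRes K L N) := by
      rw [IntermediateField.mem_fixedField_iff]
      intro s hs
      exact (mem_kerRes_iff s).1 hs _
    have hne : (⟨algebraMap L N (y : L), hmem⟩ :
        IntermediateField.fixedField (kerRes K L N)) ≠ 0 := by
      intro h0
      have := congrArg Subtype.val h0
      simp at this
    refine ⟨Units.mk0 _ hne, ?_⟩
    have e1 : unitsIncl N (IntermediateField.fixedField (kerRes K L N)) (Units.mk0 _ hne) =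
        unitsIncl N L y := Units.ext rfl
    rw [e1]
    exact hy
  exact exists_cocycle_lower_bound hUR1 hT2 hLF2 hLF3 hA4a hA4b hA4d A F K L Ku N hNL hdeg hKuK
    hdisj (by rw [hker]; exact hIcard)

/-- **T5** (glue): `H²(Gal(L/K), Lˣ)` is cyclic of order `[L : K]`. -/
theorem h2Cyclic_of (hUR5 : ExistsUnramExtStatement) (hIC : InertiaCardStatement)
    (hUR1 : UnramCyclicStatement) (hT2 : UnramNormRangeStatement) (hLF2 : ExistsUnifStatement)
    (hLF3 : IntUnitsComapStatement) (hA4a : CycCocycleIsCocycleStatement)
    (hA4b : CycCocycleCoboundaryIffStatement) (hA4d : CycCocyclePullbackStatement)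
    (hT4 : H2CardDvdStatement) : H2CyclicStatement := by
  intro A F _ _ _ _ _ _ _ _ _ K _ _ _ L _ _ _ _ _ _
  have hnpos : 0 < Module.finrank K L := Module.finrank_pos
  obtain ⟨cL, hcL, hlow⟩ :=
    exists_cocycle_order hUR5 hIC hUR1 hT2 hLF2 hLF3 hA4a hA4b hA4d A F K L
  refine card_eq_and_isAddCyclic hnpos (hT4 A F K L)
    (H2π (Rep.ofAlgebraAutOnUnits K L) (cocyclesOfIsMulCocycle₂ hcL)) (fun k hk => hlow k ?_)
  rw [← map_nsmul, H2π_eq_zero_iff] at hk
  have h1 := isMulCoboundary₂_of_mem_coboundaries₂ _ hk
  exact h1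

end Fermat.Agent.S55.Local.H964
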