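import Fermat.Agent.S55.Local.H964.T5Pieces

/-!
# S55, layer L, T5 glue: the lower bound for a tower with an unramified quotient (helper964)

`exists_cocycle_lower_bound` : let `L / K` be finite Galois of degree `n`, `N ⊇ L` Galois over
`K` with `N / L` unramified of degree `n`, and `E ⊆ N` Galois over `K`, unramified over `K`, with
`Gal(N/L) ∩ Gal(N/E) = 1` and `|Gal(N/E)| = e(N/K)`.  Then there is a 2-cocycle of `Gal(L/K)`
with values in `Lˣ` none of whose powers `k`, `n ∤ k`, is a coboundary.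
-/

set_option autoImplicit false
set_option linter.style.haveILetI false
set_option linter.unusedSectionVars false
set_option linter.unusedVariables false

namespace Fermat.Agent.S55.Local.H964

open groupCohomology Fermat.Agent.S55.Local

theorem exists_cocycle_lower_bound
    (hUR1 : UnramCyclicStatement) (hT2 : UnramNormRangeStatement) (hLF2 : ExistsUnifStatement)
    (hLF3 : IntUnitsComapStatement) (hA4a : CycCocycleIsCocycleStatement)
    (hA4b : CycCocycleCoboundaryIffStatement) (hA4d : CycCocyclePullbackStatement)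
    (A F : Type) [CommRing A] [IsDomain A] [IsDiscreteValuationRing A]
    [IsAdicComplete (IsLocalRing.maximalIdeal A) A] [Finite (IsLocalRing.ResidueField A)]
    [Field F] [CharZero F] [Algebra A F] [IsFractionRing A F]
    (K : Type) [Field K] [Algebra F K] [FiniteDimensional F K]
    (L : Type) [Field L] [Algebra F L] [Algebra K L] [IsScalarTower F K L]
    [FiniteDimensional K L] [IsGalois K L]
    (E : Type) [Field E] [Algebra F E] [Algebra K E] [IsScalarTower F K E]
    [FiniteDimensional K E] [IsGalois K E]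
    (N : Type) [Field N] [Algebra F N] [Algebra K N] [Algebra L N] [Algebra E N]
    [IsScalarTower F K N] [IsScalarTower F L N] [IsScalarTower K L N] [IsScalarTower K E N]
    [FiniteDimensional K N] [IsGalois K N]
    (hNL : IsUnram A F N L) (hdeg : Module.finrank L N = Module.finrank K L)
    (hEK : IsUnram A F E K)
    (hdisj : kerRes K L N ⊓ kerRes K E N = ⊥)
    (hcard : ∀ (ϖK : Kˣ) (ϖN : Nˣ), IsUnif A F K ϖK → IsUnif A F N ϖN →
        unitsIncl N K ϖK * ϖN ^ (-(Nat.card (kerRes K E N) : ℤ)) ∈ intUnits A F N) :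
    ∃ cL : (L ≃ₐ[K] L) × (L ≃ₐ[K] L) → Lˣ, IsMulCocycle₂ cL ∧
      ∀ k : ℕ, IsMulCoboundary₂ (fun p => cL p ^ k) → Module.finrank K L ∣ k := by
  classical
  set n := Module.finrank K L with hn
  have hnpos : 0 < n := Module.finrank_pos
  haveI : FiniteDimensional F L := Module.Finite.trans K L
  haveI : FiniteDimensional L N := Module.Finite.of_restrictScalars_finite K L N
  haveI : IsGalois L N := IsGalois.tower_top_of_isGalois K L N
  haveI hC : IsCyclic (E ≃ₐ[K] E) := hUR1 A F K E hEK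
  -- the map `ρ : Gal(N/L) → Gal(E/K)`
  let ρ : kerRes K L N →* (E ≃ₐ[K] E) := (resHom K E N).comp (kerRes K L N).subtype
  have hρinj : Function.Injective ρ := by
    refine (injective_iff_map_eq_one ρ).2 fun s hs => ?_
    have h1 : (s : N ≃ₐ[K] N) ∈ kerRes K L N ⊓ kerRes K E N := ⟨s.2, hs⟩
    rw [hdisj, Subgroup.mem_bot] at h1
    exact Subtype.ext h1
  haveI : IsCyclic (kerRes K L N) := isCyclic_of_injective ρ hρinj
  obtain ⟨ψ, hψ⟩ := IsCyclic.exists_generator (α := kerRes K L N)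
  have hcardS : Nat.card (kerRes K L N) = n := by rw [card_kerRes, hdeg]
  have hordψ : orderOf ψ = n := by rw [orderOf_eq_card_of_forall_mem_zpowers hψ, hcardS]
  have horda : orderOf (ρ ψ) = n := by rw [orderOf_injective ρ hρinj, hordψ]
  obtain ⟨φ, hφ, hφpow⟩ := exists_generator_pow_eq (ρ ψ)
  rw [horda] at hφpow
  set f := Nat.card (E ≃ₐ[K] E) with hf
  have hfE : f = Module.finrank K E := IsGalois.card_aut_eq_finrank K E
  have hnf : n ∣ f := by
    have := orderOf_dvd_natCard (ρ ψ)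
    rwa [horda] at this
  set d := f / n with hd
  have hdn : d * n = f := Nat.div_mul_cancel hnf
  set e := Nat.card (kerRes K E N) with he
  have hef : e * f = n * n := by
    have h1 : e = Module.finrank E N := card_kerRes
    have h2 : Module.finrank K E * Module.finrank E N = Module.finrank K N :=
      Module.finrank_mul_finrank K E N
    have h3 : Module.finrank K L * Module.finrank L N = Module.finrank K N :=
      Module.finrank_mul_finrank K L N
    rw [h1, hfE, mul_comm, h2, ← h3, hdeg]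
  have hed : e * d = n := by
    have h1 : e * d * n = n * n := by rw [mul_assoc, hdn, hef]
    exact Nat.eq_of_mul_eq_mul_right hnpos h1
  have hdpos : 0 < d := Nat.pos_of_ne_zero (by rintro h; rw [h, mul_zero] at hed; omega)
  obtain ⟨ϖK, hϖK⟩ := hLF2 A F K
  obtain ⟨ϖL, hϖL⟩ := hLF2 A F L
  -- ramification index of `L / K` is `e`
  have hram : unitsIncl L K ϖK * ϖL ^ (-(e : ℤ)) ∈ intUnits A F L := by
    have h1 := hcard ϖK (unitsIncl N L ϖL) hϖK (isUnif_unitsIncl A F hLF3 L N hNL hϖL)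
    rw [← unitsIncl_unitsIncl (L := L), ← map_zpow, ← map_mul] at h1
    exact (hLF3 A F L N _).1 h1
  set u₀ : Lˣ := unitsIncl L K ϖK * ϖL ^ (-(e : ℤ)) with hu₀
  have hu₀' : unitsIncl L K ϖK = u₀ * ϖL ^ e := by
    rw [hu₀, zpow_neg, zpow_natCast, inv_mul_cancel_right]
  -- the cocycles
  have haE : IsMulCocycle₂ (cycCocycle φ (unitsIncl E K (ϖK ^ d))) :=
    hA4a _ _ φ hφ _ (smul_unitsIncl_base φ _)
  set c₀ : (N ≃ₐ[K] N) × (N ≃ₐ[K] N) → Nˣ := fun p =>
    unitsIncl N E (cycCocycle φ (unitsIncl E K (ϖK ^ d)) (resHom K E N p.1, resHom K E N p.2))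
    with hc₀def
  have hc₀ : IsMulCocycle₂ c₀ := isMulCocycle₂_inflate haE
  -- (2a) `c₀ ^ k` coboundary implies `n ∣ k`
  have h2a : ∀ k : ℕ, IsMulCoboundary₂ (fun p => c₀ p ^ k) → n ∣ k := by
    intro k hk
    have h1 : IsMulCoboundary₂ (cycCocycle φ (unitsIncl E K (ϖK ^ (d * k)))) := by
      apply isMulCoboundary₂_of_inflate (N := N)
      have e1 : (fun p : (N ≃ₐ[K] N) × (N ≃ₐ[K] N) =>
          unitsIncl N E (cycCocycle φ (unitsIncl E K (ϖK ^ (d * k)))
            (resHom K E N p.1, resHom K E N p.2))) = fun p => c₀ p ^ k := by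
        funext p
        rw [hc₀def]
        simp only
        rw [← map_pow, ← cycCocycle_pow, ← map_pow, ← pow_mul]
      rw [e1]
      exact hk
    have h2 := finrank_dvd_of_cycCocycle_coboundary A F hA4b hT2 K E hEK hϖK φ hφ (d * k) h1
    rw [← hfE, ← hdn] at h2
    exact (Nat.mul_dvd_mul_iff_left hdpos).1 h2
  -- (2b) the restriction of `c₀` to `Gal(N/L)` is a coboundary
  have hρψ : ρ ψ = φ ^ (Nat.card (E ≃ₐ[K] E) / Nat.card (kerRes K L N)) := by
    rw [hcardS]
    exact hφpow.symm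
  have hX : unitsIncl N K (ϖK ^ d) = unitsIncl N L (u₀ ^ d * ϖL ^ n) := by
    rw [← unitsIncl_unitsIncl (L := L), map_pow (unitsIncl L K), hu₀', mul_pow, ← pow_mul, hed]
  have h2b : ∃ φ' : kerRes K L N → Nˣ, ∀ s t : kerRes K L N,
      c₀ ((s : N ≃ₐ[K] N), (t : N ≃ₐ[K] N)) =
        (s : N ≃ₐ[K] N) • φ' t / φ' (s * t) * φ' s := by
    obtain ⟨φ', hφ'⟩ := cycCocycle_kerRes_coboundary A F hA4b hT2 K L N hNL hϖL ψ hψ (u₀ ^ d)
      ((intUnits A F L).pow_mem hram d) n (by rw [hdeg])
    refine ⟨φ', fun s t => ?_⟩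
    have h1 : c₀ ((s : N ≃ₐ[K] N), (t : N ≃ₐ[K] N)) =
        cycCocycle φ (unitsIncl N K (ϖK ^ d)) (ρ s, ρ t) := by
      rw [hc₀def]
      simp only
      rw [← cycCocycle_map, unitsIncl_unitsIncl]
      rfl
    rw [h1, hA4d (E ≃ₐ[K] E) (kerRes K L N) Nˣ φ ψ ρ hφ hψ hρinj hρψ _ (s, t), hX]
    exact (hφ' s t).symm
  obtain ⟨φ', hφ'⟩ := h2b
  -- (3) descend to `Gal(L/K)`
  obtain ⟨c, f', hff', hf', i2, i1, i3⟩ :=
    mul_exists_inflated (kerRes K L N) mulHOneVanishes_kerRes hc₀ φ' hφ'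
  obtain ⟨cL, hcL⟩ := exists_descend₂ f' i2 i1 i3
  refine ⟨cL, isMulCocycle₂_of_descend hf' hcL, fun k hk => h2a k ?_⟩
  obtain ⟨b, hb⟩ := (isMulCoboundary₂_iff _).1 hk
  have h1 := inflate_dMul (N := N) (f' := fun p => f' p ^ k) (cL := fun p => cL p ^ k)
    (fun g h => by simp only [map_pow, hcL]) b hb
  refine (isMulCoboundary₂_iff _).2
    ⟨fun g => unitsIncl N L (b (resHom K L N g)) * c g ^ k, fun g h => ?_⟩
  rw [dMul_mul, dMul_pow, ← h1, hff', mul_pow]

end Fermat.Agent.S55.Local.H964
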