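import Fermat.Agent.S55.Local.Spec2
import Fermat.Agent.S55.Local.H964.AuxLemmas
import Fermat.Agent.S55.Local.H964.Group

/-!
# S55, layer L, T5 glue: the pieces of the lower bound (helper964)

* `isMulCoboundary₂_of_inflate` : inflation `H²(Gal(E/K), Eˣ) → H²(Gal(N/K), Nˣ)` is injective
  (cochain form).
* `isUnif_unitsIncl` : a uniformizer of `L` stays a uniformizer in an unramified extension `N / L`.
* `finrank_dvd_of_cycCocycle_coboundary` : for `E / K` unramified with generator `φ`, if the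
  standard cocycle of `ϖK ^ m` is a coboundary then `[E : K] ∣ m`.
* `cycCocycle_kerRes_coboundary` : for `N / L` unramified, the standard cocycle (for
  `kerRes K L N ≃ Gal(N/L)`) of `u * ϖL ^ m`, `[N : L] ∣ m`, is a coboundary.
-/

set_option autoImplicit false
set_option linter.style.haveILetI false
set_option linter.unusedSectionVars false

namespace Fermat.Agent.S55.Local.H964

open groupCohomology Fermat.Agent.S55.Local

section Tower

variable {K E N : Type} [Field K] [Field E] [Field N] [Algebra K E] [Algebra K N] [Algebra E N]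
  [IsScalarTower K E N] [Normal K E] [FiniteDimensional K N] [IsGalois K N]

/-- Inflation is injective on `H²` (cochain form). -/
theorem isMulCoboundary₂_of_inflate {cE : (E ≃ₐ[K] E) × (E ≃ₐ[K] E) → Eˣ}
    (h : IsMulCoboundary₂ (fun p : (N ≃ₐ[K] N) × (N ≃ₐ[K] N) =>
      unitsIncl N E (cE (resHom K E N p.1, resHom K E N p.2)))) : IsMulCoboundary₂ cE := by
  obtain ⟨c, hc⟩ := (isMulCoboundary₂_iff _).1 h
  obtain ⟨c', hc', hr, hv⟩ := mul_exists_invariant_cochain (kerRes K E N) mulHOneVanishes_kerRes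
    (f' := fun p : (N ≃ₐ[K] N) × (N ≃ₐ[K] N) =>
      unitsIncl N E (cE (resHom K E N p.1, resHom K E N p.2)))
    (inflate_inv2 cE) (inflate_inv1 cE)
    (fun s hs g h => smul_unitsIncl_of_mem_kerRes hs _) c hc
  obtain ⟨b, hb⟩ := exists_descend₁ c' hr hv
  exact (isMulCoboundary₂_iff _).2
    ⟨b, descend_dMul (f' := fun p : (N ≃ₐ[K] N) × (N ≃ₐ[K] N) =>
      unitsIncl N E (cE (resHom K E N p.1, resHom K E N p.2))) (fun g h => rfl) hc' hb⟩

end Tower

section Local

variable (A F : Type) [CommRing A] [IsDomain A] [IsDiscreteValuationRing A]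
  [IsAdicComplete (IsLocalRing.maximalIdeal A) A] [Finite (IsLocalRing.ResidueField A)]
  [Field F] [CharZero F] [Algebra A F] [IsFractionRing A F]

/-- A uniformizer of `L` stays a uniformizer in an unramified extension `N / L`. -/
theorem isUnif_unitsIncl (hLF3 : IntUnitsComapStatement)
    (L : Type) [Field L] [Algebra F L] [FiniteDimensional F L]
    (N : Type) [Field N] [Algebra F N] [Algebra L N] [IsScalarTower F L N]
    [FiniteDimensional L N] (hunr : IsUnram A F N L) {ϖL : Lˣ} (h : IsUnif A F L ϖL) :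
    IsUnif A F N (unitsIncl N L ϖL) := by
  obtain ⟨h1, h2, h3⟩ := h
  refine ⟨isInt_algebraMap A F h1, fun hmem => h2 ((hLF3 A F L N ϖL).1 hmem), fun x => ?_⟩
  obtain ⟨y, hy⟩ := hunr x
  obtain ⟨m, hm⟩ := h3 y
  refine ⟨m, ?_⟩
  have e : x * unitsIncl N L ϖL ^ (-m) =
      x * (unitsIncl N L y)⁻¹ * unitsIncl N L (y * ϖL ^ (-m)) := by
    rw [map_mul, map_zpow]
    group
  rw [e]
  exact (intUnits A F N).mul_mem hy (unitsIncl_mem_intUnits A F hm)

/-- For `E / K` unramified Galois with generator `φ`: if the standard cocycle of `ϖK ^ m` is a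
coboundary then `[E : K] ∣ m`. -/
theorem finrank_dvd_of_cycCocycle_coboundary (hA4b : CycCocycleCoboundaryIffStatement)
    (hT2 : UnramNormRangeStatement)
    (K : Type) [Field K] [Algebra F K] [FiniteDimensional F K]
    (E : Type) [Field E] [Algebra F E] [Algebra K E] [IsScalarTower F K E]
    [FiniteDimensional K E] [IsGalois K E] (hunr : IsUnram A F E K)
    {ϖK : Kˣ} (hϖ : IsUnif A F K ϖK) (φ : E ≃ₐ[K] E) (hφ : ∀ g, g ∈ Subgroup.zpowers φ)
    (m : ℕ) (h : IsMulCoboundary₂ (cycCocycle φ (unitsIncl E K (ϖK ^ m)))) :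
    Module.finrank K E ∣ m := by
  classical
  letI : Fintype (E ≃ₐ[K] E) := Fintype.ofFinite _
  obtain ⟨y, hy⟩ := (hA4b (E ≃ₐ[K] E) Eˣ φ hφ (unitsIncl E K (ϖK ^ m))
    (smul_unitsIncl_base φ _)).1 h
  rw [prod_gal_smul] at hy
  have hy' : normUnits E K y = ϖK ^ m := unitsIncl_injective_base hy
  have hmem : (1 : Kˣ) * ϖK ^ (m : ℤ) ∈ (normUnits E K).range :=
    ⟨y, by rw [hy', one_mul, zpow_natCast]⟩
  have := (hT2 A F K E ϖK hunr hϖ 1 (m : ℤ) (intUnits A F K).one_mem).1 hmem
  exact Int.natCast_dvd_natCast.1 this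

/-- For `N / L` unramified: the standard cocycle, for the cyclic group `kerRes K L N ≃ Gal(N/L)`,
of `u * ϖL ^ m` with `[N : L] ∣ m` is a coboundary. -/
theorem cycCocycle_kerRes_coboundary (hA4b : CycCocycleCoboundaryIffStatement)
    (hT2 : UnramNormRangeStatement)
    (K : Type) [Field K]
    (L : Type) [Field L] [Algebra F L] [Algebra K L] [FiniteDimensional F L] [Normal K L]
    (N : Type) [Field N] [Algebra F N] [Algebra K N] [Algebra L N] [IsScalarTower F L N]
    [IsScalarTower K L N] [FiniteDimensional K N] [IsGalois K N] (hunr : IsUnram A F N L)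
    {ϖL : Lˣ} (hϖ : IsUnif A F L ϖL) (ψ : kerRes K L N) (hψ : ∀ s, s ∈ Subgroup.zpowers ψ)
    (u : Lˣ) (hu : u ∈ intUnits A F L) (m : ℕ) (hm : Module.finrank L N ∣ m) :
    IsMulCoboundary₂ (cycCocycle ψ (unitsIncl N L (u * ϖL ^ m))) := by
  classical
  haveI : FiniteDimensional L N := Module.Finite.of_restrictScalars_finite K L N
  haveI : IsGalois L N := IsGalois.tower_top_of_isGalois K L N
  haveI : Finite (kerRes K L N) := inferInstance
  letI : Fintype (kerRes K L N) := Fintype.ofFinite _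
  obtain ⟨y, hy⟩ := (hT2 A F L N ϖL hunr hϖ u (m : ℤ) hu).2 (Int.natCast_dvd_natCast.2 hm)
  rw [zpow_natCast] at hy
  refine (hA4b (kerRes K L N) Nˣ ψ hψ (unitsIncl N L (u * ϖL ^ m))
    (smul_unitsIncl_of_mem_kerRes ψ.2 _)).2 ⟨y, ?_⟩
  rw [← hy]
  exact prod_kerRes_smul y

end Local

end Fermat.Agent.S55.Local.H964
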